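import Fermat.Agent.S56.Flat.T2.CocycleLemma

/-!
# S56, block (a3) `Flat`, supplement T2: matrix form of the conclusion

`rb : Γ →* GL (Fin 2) k` upper triangular (`(rb g) 1 0 = 0`), `c : Γ → M₂(k)` with
`c (g h) = rb g * c h * (rb g)⁻¹ + c g` (the convention of `S56/Coh`).  The lower-left entry
`γ g = (c g) 1 0` is a cocycle for the character `χ = χ₂ / χ₁`, `χ₁ g = (rb g) 0 0`,
`χ₂ g = (rb g) 1 1`.  If `χ₂` is trivial on the normal subgroup `In`, `χ₁ g₀ ≠ 1` for some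
`g₀ ∈ In`, and `γ` vanishes on `{g ∈ In | χ₁ g = 1}`, then `γ` is the lower-left entry of the
coboundary of `X = x₀ • E₂₁`: `c - ∂X` is upper triangular (`exists_coboundary_lowerLeft`).
-/

set_option autoImplicit false

namespace Fermat.Agent.S56.Flat.T2.MatrixForm

open Matrix

variable {Γ : Type*} [Group Γ] {k : Type*} [Field k]

/-- The `(0,0)` entry of an invertible upper triangular matrix is non-zero. -/
theorem entry00_ne_zero (g : GL (Fin 2) k) (hg : (g : Matrix (Fin 2) (Fin 2) k) 1 0 = 0) :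
    (g : Matrix (Fin 2) (Fin 2) k) 0 0 ≠ 0 := by
  have hdet : (g : Matrix (Fin 2) (Fin 2) k).det ≠ 0 :=
    ((Matrix.isUnit_iff_isUnit_det (g : Matrix (Fin 2) (Fin 2) k)).1 g.isUnit).ne_zero
  rw [Matrix.det_fin_two, hg, mul_zero, sub_zero] at hdet
  exact left_ne_zero_of_mul hdet

theorem entry11_ne_zero (g : GL (Fin 2) k) (hg : (g : Matrix (Fin 2) (Fin 2) k) 1 0 = 0) :
    (g : Matrix (Fin 2) (Fin 2) k) 1 1 ≠ 0 := by
  have hdet : (g : Matrix (Fin 2) (Fin 2) k).det ≠ 0 :=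
    ((Matrix.isUnit_iff_isUnit_det (g : Matrix (Fin 2) (Fin 2) k)).1 g.isUnit).ne_zero
  rw [Matrix.det_fin_two, hg, mul_zero, sub_zero] at hdet
  exact right_ne_zero_of_mul hdet

/-- The lower-left entry of `g X g⁻¹` for an upper triangular `g`. -/
theorem conj_lowerLeft (g : GL (Fin 2) k) (hg : (g : Matrix (Fin 2) (Fin 2) k) 1 0 = 0)
    (X : Matrix (Fin 2) (Fin 2) k) :
    ((g : Matrix (Fin 2) (Fin 2) k) * X * ((g⁻¹ : GL (Fin 2) k) : Matrix (Fin 2) (Fin 2) k)) 1 0 =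
      (g : Matrix (Fin 2) (Fin 2) k) 1 1 * ((g : Matrix (Fin 2) (Fin 2) k) 0 0)⁻¹ * X 1 0 := by
  have h00 := entry00_ne_zero g hg
  have h11 := entry11_ne_zero g hg
  have hdet : (g : Matrix (Fin 2) (Fin 2) k).det =
      (g : Matrix (Fin 2) (Fin 2) k) 0 0 * (g : Matrix (Fin 2) (Fin 2) k) 1 1 := by
    rw [Matrix.det_fin_two, hg, mul_zero, sub_zero]
  rw [Matrix.coe_units_inv, Matrix.inv_def, Ring.inverse_eq_inv', Matrix.adjugate_fin_two, hdet]
  simp only [Matrix.mul_apply, Fin.sum_univ_two, Matrix.smul_apply, Matrix.of_apply,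
    Matrix.cons_val_zero, Matrix.cons_val_one, Matrix.cons_val', Matrix.empty_val',
    Matrix.cons_val_fin_one, smul_eq_mul, hg]
  field_simp
  ring

variable (rb : Γ →* GL (Fin 2) k)

/-- The diagonal character `χ₂ / χ₁` of an upper triangular representation, as a monoid hom to
`k`. -/
def chi (hut : ∀ g, (rb g : Matrix (Fin 2) (Fin 2) k) 1 0 = 0) : Γ →* k where
  toFun g := (rb g : Matrix (Fin 2) (Fin 2) k) 1 1 * ((rb g : Matrix (Fin 2) (Fin 2) k) 0 0)⁻¹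
  map_one' := by simp
  map_mul' g h := by
    have e00 : (rb (g * h) : Matrix (Fin 2) (Fin 2) k) 0 0 =
        (rb g : Matrix (Fin 2) (Fin 2) k) 0 0 * (rb h : Matrix (Fin 2) (Fin 2) k) 0 0 := by
      rw [map_mul, Units.val_mul, Matrix.mul_apply, Fin.sum_univ_two, hut h, mul_zero, add_zero]
    have e11 : (rb (g * h) : Matrix (Fin 2) (Fin 2) k) 1 1 =
        (rb g : Matrix (Fin 2) (Fin 2) k) 1 1 * (rb h : Matrix (Fin 2) (Fin 2) k) 1 1 := by
      rw [map_mul, Units.val_mul, Matrix.mul_apply, Fin.sum_univ_two, hut g, zero_mul, zero_add]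
    rw [e00, e11, mul_inv]
    ring

theorem chi_apply (hut : ∀ g, (rb g : Matrix (Fin 2) (Fin 2) k) 1 0 = 0) (g : Γ) :
    chi rb hut g =
      (rb g : Matrix (Fin 2) (Fin 2) k) 1 1 * ((rb g : Matrix (Fin 2) (Fin 2) k) 0 0)⁻¹ := rfl

theorem entry00_mul (hut : ∀ g, (rb g : Matrix (Fin 2) (Fin 2) k) 1 0 = 0) (g h : Γ) :
    (rb (g * h) : Matrix (Fin 2) (Fin 2) k) 0 0 =
      (rb g : Matrix (Fin 2) (Fin 2) k) 0 0 * (rb h : Matrix (Fin 2) (Fin 2) k) 0 0 := by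
  rw [map_mul, Units.val_mul, Matrix.mul_apply, Fin.sum_univ_two, hut h, mul_zero, add_zero]

theorem entry00_inv (hut : ∀ g, (rb g : Matrix (Fin 2) (Fin 2) k) 1 0 = 0) (g : Γ) :
    (rb g⁻¹ : Matrix (Fin 2) (Fin 2) k) 0 0 = ((rb g : Matrix (Fin 2) (Fin 2) k) 0 0)⁻¹ := by
  have h := entry00_mul rb hut g g⁻¹
  rw [mul_inv_cancel, map_one, Units.val_one, Matrix.one_apply_eq] at h
  exact eq_inv_of_mul_eq_one_right h.symm

/-- **T2, matrix form.**  The lower-left entry of the cocycle is the lower-left entry of a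
coboundary `∂(x₀ • E₂₁)`. -/
theorem exists_coboundary_lowerLeft (hut : ∀ g, (rb g : Matrix (Fin 2) (Fin 2) k) 1 0 = 0)
    (c : Γ → Matrix (Fin 2) (Fin 2) k)
    (hc : ∀ g h, c (g * h) = (rb g : Matrix (Fin 2) (Fin 2) k) * c h *
      ((rb g)⁻¹ : GL (Fin 2) k) + c g)
    (In : Subgroup Γ) [In.Normal]
    (hχ₂ : ∀ g ∈ In, (rb g : Matrix (Fin 2) (Fin 2) k) 1 1 = 1)
    {g₀ : Γ} (hg₀ : g₀ ∈ In) (hg₀1 : (rb g₀ : Matrix (Fin 2) (Fin 2) k) 0 0 ≠ 1)
    (hvan : ∀ g ∈ In, (rb g : Matrix (Fin 2) (Fin 2) k) 0 0 = 1 → c g 1 0 = 0) :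
    ∃ x₀ : k, ∀ h, c h 1 0 = (chi rb hut h - 1) * x₀ := by
  -- the subgroup `In₁ = {g ∈ In | χ₁ g = 1}`
  let In₁ : Subgroup Γ :=
    { carrier := {g | g ∈ In ∧ (rb g : Matrix (Fin 2) (Fin 2) k) 0 0 = 1}
      one_mem' := ⟨In.one_mem, by simp⟩
      mul_mem' := by
        rintro a b ⟨ha, ha1⟩ ⟨hb, hb1⟩
        exact ⟨In.mul_mem ha hb, by rw [entry00_mul rb hut, ha1, hb1, one_mul]⟩
      inv_mem' := by
        rintro a ⟨ha, ha1⟩
        exact ⟨In.inv_mem ha, by rw [entry00_inv rb hut, ha1, inv_one]⟩ }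
  have hχg₀ : chi rb hut g₀ ≠ 1 := by
    rw [chi_apply, hχ₂ g₀ hg₀, one_mul]
    intro h
    exact hg₀1 (inv_eq_one.mp h)
  have key := CocycleLemma.eq_coboundary_of_vanish (M := k) In In₁ (chi rb hut)
    (fun n hn => by rw [chi_apply, hχ₂ n hn.1, hn.2, inv_one, mul_one])
    (fun a ha b hb => by
      refine ⟨?_, ?_⟩
      · exact In.mul_mem (In.mul_mem (In.mul_mem ha hb) (In.inv_mem ha)) (In.inv_mem hb)
      · rw [entry00_mul rb hut, entry00_mul rb hut, entry00_mul rb hut, entry00_inv rb hut,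
          entry00_inv rb hut]
        have ha0 := entry00_ne_zero (rb a) (hut a)
        have hb0 := entry00_ne_zero (rb b) (hut b)
        field_simp)
    (fun g => c g 1 0)
    (fun s t => by
      change c (s * t) 1 0 = c s 1 0 + chi rb hut s • c t 1 0
      rw [hc s t, Matrix.add_apply, conj_lowerLeft (rb s) (hut s), chi_apply, smul_eq_mul,
        add_comm])
    (fun n hn => hvan n hn.1 hn.2) hg₀ hχg₀
  exact ⟨(chi rb hut g₀ - 1)⁻¹ • c g₀ 1 0, fun h => by rw [key h, smul_eq_mul]⟩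

end Fermat.Agent.S56.Flat.T2.MatrixForm
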