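import Fermat.Agent.S56.Flat.T2.Loc
import Fermat.Agent.S56.Flat.T2.MatrixForm
import Fermat.Agent.S56.Flat.Dict.LocFlat

/-!
# S56, block (a3) `Flat`, supplement T2: the export in the frames of `Dev`

`rb : LocGal p →* GL (Fin 2) k` upper triangular (`(rb g) 1 0 = 0`), diagonal characters
`x₁ g = (rb g) 0 0` (the stable line) and `x₂ g = (rb g) 1 1` (the quotient), `k` a finite field of
characteristic `p ≥ 3`.  The lift `V_c = V̄ ⊕ ε V̄` attached to `c : LocGal p → M₂(k)` is spelled as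
the lambda term of the slice architect (`Dev/Subspace.actV`):
`fun g z => (rb g *ᵥ z.1, rb g *ᵥ z.2 + c g *ᵥ (rb g *ᵥ z.1))`.

* `lowerLeft_coboundary` **(S29)** : `x₁` ramified, `x₂` unramified, `c` a cocycle
  (`c (g h) = rb g * c h * (rb g)⁻¹ + c g`), `V_c` locally flat: there is a trace-zero matrix `n`
  such that `c - ∂n` is upper triangular.
* `split_of_flat` **(T2-A)** : `x₁` unramified, `x₂` ramified, `V̄` locally flat: `V̄` splits,
  `(rb g) 0 1 = t * (x₁ g - x₂ g)`.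
-/

set_option autoImplicit false

noncomputable section

namespace Fermat.Agent.S56.Flat.T2.Export

open Matrix Fermat.Agent.S32.HopfClosure Fermat.Agent.CFT.LocalBridge Fermat.Agent.S56.Flat.T2
  Fermat.Agent.S56.Flat.Dict

variable {p : ℕ} [Fact p.Prime]

/-- Local inertia is a normal subgroup of the local Galois group. -/
theorem localInertia_normal : (localInertia p).Normal := by
  refine ⟨fun τ hτ g => ?_⟩
  rw [mem_localInertia_iff] at hτ ⊢
  intro z hz
  have h1 : ‖g⁻¹ z‖ ≤ 1 := by rw [norm_locGal_apply]; exact hz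
  have h2 : (g * τ * g⁻¹) z - z = g (τ (g⁻¹ z) - g⁻¹ z) := by
    have h3 : g (g⁻¹ z) = z := by
      change g (g.symm z) = z
      exact g.apply_symm_apply z
    rw [map_sub, h3]
    rfl
  rw [h2, norm_locGal_apply]
  exact hτ _ h1

variable {k : Type*} [Field k]

/-- The stable line `k e₀` of an upper triangular representation on `k²`. -/
def line0 : Submodule k (Fin 2 → k) where
  carrier := {v | v 1 = 0}
  add_mem' := by
    intro a b ha hb
    change (a + b) 1 = 0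
    rw [Pi.add_apply, ha, hb, add_zero]
  zero_mem' := rfl
  smul_mem' := by
    intro r a ha
    change (r • a) 1 = 0
    rw [Pi.smul_apply, ha, smul_zero]

theorem mem_line0 {v : Fin 2 → k} : v ∈ (line0 : Submodule k (Fin 2 → k)) ↔ v 1 = 0 := Iff.rfl

/-- The representation on `k²` as a monoid homomorphism to `End_k(k²)`. -/
def rhoEnd (rb : LocGal p →* GL (Fin 2) k) : LocGal p →* Module.End k (Fin 2 → k) where
  toFun g := Matrix.mulVecLin (rb g : Matrix (Fin 2) (Fin 2) k)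
  map_one' := by
    rw [map_one, Units.val_one, Matrix.mulVecLin_one]
    rfl
  map_mul' g h := by
    rw [map_mul, Units.val_mul, Matrix.mulVecLin_mul]
    rfl

theorem rhoEnd_apply (rb : LocGal p →* GL (Fin 2) k) (g : LocGal p) (v : Fin 2 → k) :
    rhoEnd rb g v = (rb g : Matrix (Fin 2) (Fin 2) k) *ᵥ v := rfl

theorem mulVec_zero_entry (A : Matrix (Fin 2) (Fin 2) k) (v : Fin 2 → k) :
    (A *ᵥ v) 0 = A 0 0 * v 0 + A 0 1 * v 1 := by
  rw [Matrix.mulVec, dotProduct, Fin.sum_univ_two]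

theorem mulVec_one_entry (A : Matrix (Fin 2) (Fin 2) k) (v : Fin 2 → k) :
    (A *ᵥ v) 1 = A 1 0 * v 0 + A 1 1 * v 1 := by
  rw [Matrix.mulVec, dotProduct, Fin.sum_univ_two]

/-- **(S29), vanishing form.**  In a locally flat lift, the lower-left entry of the cocycle
vanishes on the elements of inertia on which `x₁` is trivial. -/
theorem lowerLeft_eq_zero (hp3 : 3 ≤ p) [Finite k] [CharP k p]
    (rb : LocGal p →* GL (Fin 2) k) (c : LocGal p → Matrix (Fin 2) (Fin 2) k)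
    (h10 : ∀ g, (rb g : Matrix (Fin 2) (Fin 2) k) 1 0 = 0)
    (hunr : ∀ s ∈ localInertia p, (rb s : Matrix (Fin 2) (Fin 2) k) 1 1 = 1)
    (hflat : IsLocFlat p (fun (g : LocGal p) (z : (Fin 2 → k) × (Fin 2 → k)) =>
      ((rb g : Matrix (Fin 2) (Fin 2) k) *ᵥ z.1,
        (rb g : Matrix (Fin 2) (Fin 2) k) *ᵥ z.2 +
          c g *ᵥ ((rb g : Matrix (Fin 2) (Fin 2) k) *ᵥ z.1))))
    {g : LocGal p} (hg : g ∈ localInertia p)
    (hg1 : (rb g : Matrix (Fin 2) (Fin 2) k) 0 0 = 1) : c g 1 0 = 0 := by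
  obtain ⟨H, hH⟩ := hflat
  have hact : (fun (g : LocGal p) (z : (Fin 2 → k) × (Fin 2 → k)) =>
      ((rb g : Matrix (Fin 2) (Fin 2) k) *ᵥ z.1,
        (rb g : Matrix (Fin 2) (Fin 2) k) *ᵥ z.2 +
          c g *ᵥ ((rb g : Matrix (Fin 2) (Fin 2) k) *ᵥ z.1))) =
      Shape.liftAct (fun g => rhoEnd rb g) (fun g => Matrix.mulVecLin (c g)) := by
    funext g z
    simp only [Shape.liftAct, rhoEnd_apply, Matrix.mulVecLin_apply]
    rw [add_comm]
  rw [hact] at hH
  have hpV : ∀ v : Fin 2 → k, p • v = 0 := by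
    intro v
    funext i
    rw [Pi.smul_apply, Pi.zero_apply, nsmul_eq_mul, CharP.cast_eq_zero, zero_mul]
  have key := Loc.lowerLeft_mem_loc hp3 hpV (rhoEnd rb) (fun g => Matrix.mulVecLin (c g))
    (line0 : Submodule k (Fin 2 → k))
    (fun g v hv => by
      rw [mem_line0] at hv ⊢
      rw [rhoEnd_apply, mulVec_one_entry, h10, hv, zero_mul, mul_zero, add_zero])
    (fun s hs v => by
      rw [mem_line0, rhoEnd_apply, Pi.sub_apply, mulVec_one_entry, h10, hunr s hs, zero_mul,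
        zero_add, one_mul, sub_self])
    H hH hg
    (fun v hv => by
      rw [mem_line0] at hv
      funext i
      fin_cases i
      · change (rhoEnd rb g v) 0 = v 0
        rw [rhoEnd_apply, mulVec_zero_entry, hg1, hv, one_mul, mul_zero, add_zero]
      · change (rhoEnd rb g v) 1 = v 1
        rw [rhoEnd_apply, mulVec_one_entry, h10, hv, zero_mul, mul_zero, add_zero])
    (v := fun i => if i = 0 then 1 else 0)
    (by rw [mem_line0]; simp)
  rw [mem_line0, Matrix.mulVecLin_apply, mulVec_one_entry] at key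
  simpa using key

/-- **(S29).**  `x₁` ramified, `x₂` unramified, `V_c` locally flat: the cocycle `c` is upper
triangular up to the coboundary of a trace-zero matrix. -/
theorem lowerLeft_coboundary (hp3 : 3 ≤ p) [Finite k] [CharP k p]
    (rb : LocGal p →* GL (Fin 2) k) (c : LocGal p → Matrix (Fin 2) (Fin 2) k)
    (h10 : ∀ g, (rb g : Matrix (Fin 2) (Fin 2) k) 1 0 = 0)
    (hram : ∃ s ∈ localInertia p, (rb s : Matrix (Fin 2) (Fin 2) k) 0 0 ≠ 1)
    (hunr : ∀ s ∈ localInertia p, (rb s : Matrix (Fin 2) (Fin 2) k) 1 1 = 1)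
    (hc : ∀ g h, c (g * h) = (rb g : Matrix (Fin 2) (Fin 2) k) * c h *
      (((rb g)⁻¹ : GL (Fin 2) k) : Matrix (Fin 2) (Fin 2) k) + c g)
    (hflat : IsLocFlat p (fun (g : LocGal p) (z : (Fin 2 → k) × (Fin 2 → k)) =>
      ((rb g : Matrix (Fin 2) (Fin 2) k) *ᵥ z.1,
        (rb g : Matrix (Fin 2) (Fin 2) k) *ᵥ z.2 +
          c g *ᵥ ((rb g : Matrix (Fin 2) (Fin 2) k) *ᵥ z.1)))) :
    ∃ n : Matrix (Fin 2) (Fin 2) k, n.trace = 0 ∧
      ∀ g, (c g - ((rb g : Matrix (Fin 2) (Fin 2) k) * n *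
        (((rb g)⁻¹ : GL (Fin 2) k) : Matrix (Fin 2) (Fin 2) k) - n)) 1 0 = 0 := by
  obtain ⟨g₀, hg₀, hg₀1⟩ := hram
  haveI : (localInertia p).Normal := localInertia_normal
  obtain ⟨x₀, hx₀⟩ := MatrixForm.exists_coboundary_lowerLeft rb h10 c hc (localInertia p) hunr
    hg₀ hg₀1 (fun g hg hg1 => lowerLeft_eq_zero hp3 rb c h10 hunr hflat hg hg1)
  refine ⟨Matrix.of ![![0, 0], ![x₀, 0]], ?_, fun g => ?_⟩
  · rw [Matrix.trace_fin_two]
    simp
  · rw [Matrix.sub_apply, Matrix.sub_apply, MatrixForm.conj_lowerLeft (rb g) (h10 g), hx₀ g,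
      MatrixForm.chi_apply]
    simp only [Matrix.of_apply, Matrix.cons_val_one, Matrix.cons_val_zero]
    ring

/-- **(T2-A).**  `x₁` unramified, `x₂` ramified, `V̄` locally flat: the extension splits. -/
theorem split_of_flat (hp3 : 3 ≤ p) [Finite k] [CharP k p]
    (rb : LocGal p →* GL (Fin 2) k)
    (h10 : ∀ g, (rb g : Matrix (Fin 2) (Fin 2) k) 1 0 = 0)
    (hunr : ∀ s ∈ localInertia p, (rb s : Matrix (Fin 2) (Fin 2) k) 0 0 = 1)
    (hram : ∃ s ∈ localInertia p, (rb s : Matrix (Fin 2) (Fin 2) k) 1 1 ≠ 1)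
    (hflat : IsLocFlat p (fun (g : LocGal p) (v : Fin 2 → k) =>
      (rb g : Matrix (Fin 2) (Fin 2) k) *ᵥ v)) :
    ∃ t : k, ∀ g, (rb g : Matrix (Fin 2) (Fin 2) k) 0 1 =
      t * ((rb g : Matrix (Fin 2) (Fin 2) k) 0 0 - (rb g : Matrix (Fin 2) (Fin 2) k) 1 1) := by
  obtain ⟨g₀, hg₀, hg₀1⟩ := hram
  obtain ⟨H, hH⟩ := hflat
  haveI : (localInertia p).Normal := localInertia_normal
  have hpV : ∀ v : Fin 2 → k, p • v = 0 := by
    intro v
    funext i
    rw [Pi.smul_apply, Pi.zero_apply, nsmul_eq_mul, CharP.cast_eq_zero, zero_mul]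
  -- entries of products
  have e00 : ∀ g h, (rb (g * h) : Matrix (Fin 2) (Fin 2) k) 0 0 =
      (rb g : Matrix (Fin 2) (Fin 2) k) 0 0 * (rb h : Matrix (Fin 2) (Fin 2) k) 0 0 :=
    MatrixForm.entry00_mul rb h10
  have e11 : ∀ g h, (rb (g * h) : Matrix (Fin 2) (Fin 2) k) 1 1 =
      (rb g : Matrix (Fin 2) (Fin 2) k) 1 1 * (rb h : Matrix (Fin 2) (Fin 2) k) 1 1 := by
    intro g h
    rw [map_mul, Units.val_mul, Matrix.mul_apply, Fin.sum_univ_two, h10 g, zero_mul, zero_add]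
  have e01 : ∀ g h, (rb (g * h) : Matrix (Fin 2) (Fin 2) k) 0 1 =
      (rb g : Matrix (Fin 2) (Fin 2) k) 0 0 * (rb h : Matrix (Fin 2) (Fin 2) k) 0 1 +
        (rb g : Matrix (Fin 2) (Fin 2) k) 0 1 * (rb h : Matrix (Fin 2) (Fin 2) k) 1 1 := by
    intro g h
    rw [map_mul, Units.val_mul, Matrix.mul_apply, Fin.sum_univ_two]
  have n00 : ∀ g, (rb g : Matrix (Fin 2) (Fin 2) k) 0 0 ≠ 0 := fun g =>
    MatrixForm.entry00_ne_zero (rb g) (h10 g)
  have n11 : ∀ g, (rb g : Matrix (Fin 2) (Fin 2) k) 1 1 ≠ 0 := fun g =>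
    MatrixForm.entry11_ne_zero (rb g) (h10 g)
  have i11 : ∀ g, (rb g⁻¹ : Matrix (Fin 2) (Fin 2) k) 1 1 =
      ((rb g : Matrix (Fin 2) (Fin 2) k) 1 1)⁻¹ := by
    intro g
    have h := e11 g g⁻¹
    rw [mul_inv_cancel, map_one, Units.val_one, Matrix.one_apply_eq] at h
    exact eq_inv_of_mul_eq_one_right h.symm
  -- the character `x₁ / x₂`
  let χ : LocGal p →* k :=
    { toFun := fun g => (rb g : Matrix (Fin 2) (Fin 2) k) 0 0 *
        ((rb g : Matrix (Fin 2) (Fin 2) k) 1 1)⁻¹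
      map_one' := by simp
      map_mul' := fun g h => by
        rw [e00, e11, mul_inv]
        ring }
  have hχ : ∀ g, χ g = (rb g : Matrix (Fin 2) (Fin 2) k) 0 0 *
      ((rb g : Matrix (Fin 2) (Fin 2) k) 1 1)⁻¹ := fun _ => rfl
  -- the subgroup of inertia on which `x₂` is trivial
  let In₁ : Subgroup (LocGal p) :=
    { carrier := {g | g ∈ localInertia p ∧ (rb g : Matrix (Fin 2) (Fin 2) k) 1 1 = 1}
      one_mem' := ⟨(localInertia p).one_mem, by simp⟩
      mul_mem' := by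
        rintro a b ⟨ha, ha1⟩ ⟨hb, hb1⟩
        exact ⟨(localInertia p).mul_mem ha hb, by rw [e11, ha1, hb1, one_mul]⟩
      inv_mem' := by
        rintro a ⟨ha, ha1⟩
        exact ⟨(localInertia p).inv_mem ha, by rw [i11, ha1, inv_one]⟩ }
  -- (T2-A): the upper right entry vanishes on `In₁`
  have hvan : ∀ g ∈ In₁, (rb g : Matrix (Fin 2) (Fin 2) k) 0 1 = 0 := by
    rintro g ⟨hg, hg1⟩
    have hact : (fun (g : LocGal p) (v : Fin 2 → k) =>
        (rb g : Matrix (Fin 2) (Fin 2) k) *ᵥ v) = fun g v => rhoEnd rb g v := rfl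
    rw [hact] at hH
    have key := Loc.trivial_of_flat_loc hp3 hpV (rhoEnd rb)
      (line0 : Submodule k (Fin 2 → k))
      (fun s hs v hv => by
        rw [mem_line0] at hv
        funext i
        fin_cases i
        · change (rhoEnd rb s v) 0 = v 0
          rw [rhoEnd_apply, mulVec_zero_entry, hunr s hs, hv, one_mul, mul_zero, add_zero]
        · change (rhoEnd rb s v) 1 = v 1
          rw [rhoEnd_apply, mulVec_one_entry, h10, hv, zero_mul, mul_zero, add_zero])
      H hH hg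
      (fun v => by
        rw [mem_line0, rhoEnd_apply, Pi.sub_apply, mulVec_one_entry, h10, hg1, zero_mul,
          zero_add, one_mul, sub_self])
      (fun i => if i = 0 then 0 else 1)
    have h0 := congrFun key 0
    rw [rhoEnd_apply, mulVec_zero_entry] at h0
    simpa using h0
  have hχg₀ : χ g₀ ≠ 1 := by
    rw [hχ, hunr g₀ hg₀, one_mul]
    intro h
    exact hg₀1 (inv_eq_one.mp h)
  have key := CocycleLemma.eq_coboundary_of_vanish (M := k) (localInertia p) In₁ χ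
    (fun n hn => by rw [hχ, hunr n hn.1, hn.2, inv_one, mul_one])
    (fun a ha b hb => by
      refine ⟨?_, ?_⟩
      · exact (localInertia p).mul_mem ((localInertia p).mul_mem ((localInertia p).mul_mem ha hb)
          ((localInertia p).inv_mem ha)) ((localInertia p).inv_mem hb)
      · rw [e11, e11, e11, i11, i11]
        have ha0 := n11 a
        have hb0 := n11 b
        field_simp)
    (fun g => (rb g : Matrix (Fin 2) (Fin 2) k) 0 1 * ((rb g : Matrix (Fin 2) (Fin 2) k) 1 1)⁻¹)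
    (fun s t => by
      change (rb (s * t) : Matrix (Fin 2) (Fin 2) k) 0 1 *
          ((rb (s * t) : Matrix (Fin 2) (Fin 2) k) 1 1)⁻¹ =
        (rb s : Matrix (Fin 2) (Fin 2) k) 0 1 * ((rb s : Matrix (Fin 2) (Fin 2) k) 1 1)⁻¹ +
          χ s • ((rb t : Matrix (Fin 2) (Fin 2) k) 0 1 *
            ((rb t : Matrix (Fin 2) (Fin 2) k) 1 1)⁻¹)
      rw [e01, e11, hχ, smul_eq_mul]
      have hs0 := n11 s
      have ht0 := n11 t
      field_simp
      ring)
    (fun n hn => by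
      change (rb n : Matrix (Fin 2) (Fin 2) k) 0 1 * _ = 0
      rw [hvan n hn, zero_mul])
    hg₀ hχg₀
  refine ⟨(χ g₀ - 1)⁻¹ • ((rb g₀ : Matrix (Fin 2) (Fin 2) k) 0 1 *
    ((rb g₀ : Matrix (Fin 2) (Fin 2) k) 1 1)⁻¹), fun g => ?_⟩
  have hg := key g
  have hg0 := n11 g
  rw [hχ, smul_eq_mul] at hg
  set t := (χ g₀ - 1)⁻¹ • ((rb g₀ : Matrix (Fin 2) (Fin 2) k) 0 1 *
    ((rb g₀ : Matrix (Fin 2) (Fin 2) k) 1 1)⁻¹) with ht
  have : (rb g : Matrix (Fin 2) (Fin 2) k) 0 1 =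
      ((rb g : Matrix (Fin 2) (Fin 2) k) 0 0 * ((rb g : Matrix (Fin 2) (Fin 2) k) 1 1)⁻¹ - 1) * t *
        (rb g : Matrix (Fin 2) (Fin 2) k) 1 1 := by
    rw [← hg]
    field_simp
  rw [this]
  field_simp

end Fermat.Agent.S56.Flat.T2.Export
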