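import Mathlib

/-!
# S56, block (a3) `Flat`, supplement T2: the cocycle lemma (C)

Pure group theory.  `G` a group, `In ⊴ G` ("inertia"), `In₁ ≤ In` with `In / In₁` abelian
(stated through commutators), `χ : G →* k` a character which is trivial on `In₁` and non-trivial at
some `g₀ ∈ In`.  A `χ`-twisted cocycle `γ : G → M` (`M` a `k`-vector space on which `G` acts through
`χ`) which vanishes on `In₁` is a coboundary: `γ h = (χ h - 1) • x₀`.

This is the step of T2 which turns "the lower-left entry of a flat lift vanishes on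
`ker (χ₁|In)`" into "the lower-left entry is a coboundary on the whole decomposition group".
-/

set_option autoImplicit false

namespace Fermat.Agent.S56.Flat.T2.CocycleLemma

variable {G : Type*} [Group G] {k : Type*} [Field k] {M : Type*} [AddCommGroup M] [Module k M]

/-- A `χ`-twisted cocycle vanishes at `1`. -/
theorem cocycle_one (χ : G →* k) (γ : G → M)
    (hγ : ∀ s t, γ (s * t) = γ s + χ s • γ t) : γ 1 = 0 := by
  have h := hγ 1 1
  rw [mul_one, map_one, one_smul] at h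
  exact left_eq_add.mp h

/-- Subtracting the coboundary of `x₀` from a `χ`-twisted cocycle gives a `χ`-twisted cocycle. -/
theorem cocycle_sub_coboundary (χ : G →* k) (γ : G → M)
    (hγ : ∀ s t, γ (s * t) = γ s + χ s • γ t) (x₀ : M) (s t : G) :
    γ (s * t) - (χ (s * t) - 1) • x₀ =
      (γ s - (χ s - 1) • x₀) + χ s • (γ t - (χ t - 1) • x₀) := by
  rw [hγ, map_mul]
  module

/-- **(C), vanishing form.**  A `χ`-twisted cocycle which vanishes on `In₁` and at one element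
`g₀ ∈ In` with `χ g₀ ≠ 1` vanishes identically. -/
theorem eq_zero_of_vanish (In In₁ : Subgroup G) [In.Normal]
    (χ : G →* k) (hcomm : ∀ a ∈ In, ∀ b ∈ In, a * b * a⁻¹ * b⁻¹ ∈ In₁)
    (γ : G → M) (hγ : ∀ s t, γ (s * t) = γ s + χ s • γ t)
    (hvan : ∀ n ∈ In₁, γ n = 0)
    {g₀ : G} (hg₀ : g₀ ∈ In) (hχg₀ : χ g₀ ≠ 1) (hγg₀ : γ g₀ = 0) (h : G) : γ h = 0 := by
  have hne : χ g₀ - 1 ≠ 0 := sub_ne_zero.mpr hχg₀
  -- Step 1: `γ` vanishes on `In`.
  have step1 : ∀ x ∈ In, γ x = 0 := by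
    intro x hx
    set n : G := g₀⁻¹ * x⁻¹ * g₀ * x with hn
    have hnmem : n ∈ In₁ := by
      have := hcomm g₀⁻¹ (In.inv_mem hg₀) x⁻¹ (In.inv_mem hx)
      simpa [hn, inv_inv] using this
    have heq : g₀ * x = x * g₀ * n := by
      rw [hn]; group
    have h1 : γ (g₀ * x) = χ g₀ • γ x := by rw [hγ, hγg₀, zero_add]
    have h2 : γ (x * g₀ * n) = γ x := by
      rw [hγ (x * g₀) n, hvan n hnmem, smul_zero, add_zero, hγ x g₀, hγg₀, smul_zero, add_zero]
    have h3 : (χ g₀ - 1) • γ x = 0 := by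
      rw [sub_smul, one_smul, ← h1, heq, h2, sub_self]
    exact (smul_eq_zero.mp h3).resolve_left hne
  -- Step 2: conjugate `g₀` by an arbitrary `h`.
  have hconj : h * g₀ * h⁻¹ ∈ In := ‹In.Normal›.conj_mem g₀ hg₀ h
  have h0 := step1 _ hconj
  have hinv : χ h • γ h⁻¹ = -γ h := by
    have := hγ h h⁻¹
    rw [mul_inv_cancel, cocycle_one χ γ hγ] at this
    exact (neg_eq_of_add_eq_zero_right this.symm).symm ▸ rfl
  have h4 : γ (h * g₀ * h⁻¹) = (1 - χ g₀) • γ h := by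
    rw [hγ (h * g₀) h⁻¹, hγ h g₀, hγg₀, smul_zero, add_zero, map_mul, mul_comm (χ h) (χ g₀),
      mul_smul, hinv, smul_neg, sub_smul, one_smul, sub_eq_add_neg]
  rw [h4] at h0
  have hne' : (1 : k) - χ g₀ ≠ 0 := sub_ne_zero.mpr (Ne.symm hχg₀)
  exact (smul_eq_zero.mp h0).resolve_left hne'

/-- **(C).**  A `χ`-twisted cocycle which vanishes on `In₁` is the coboundary of
`x₀ = (χ g₀ - 1)⁻¹ • γ g₀`, for any `g₀ ∈ In` with `χ g₀ ≠ 1`, provided `χ` is trivial on `In₁`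
and `In / In₁` is abelian. -/
theorem eq_coboundary_of_vanish (In In₁ : Subgroup G) [In.Normal]
    (χ : G →* k) (hχ₁ : ∀ n ∈ In₁, χ n = 1)
    (hcomm : ∀ a ∈ In, ∀ b ∈ In, a * b * a⁻¹ * b⁻¹ ∈ In₁)
    (γ : G → M) (hγ : ∀ s t, γ (s * t) = γ s + χ s • γ t)
    (hvan : ∀ n ∈ In₁, γ n = 0)
    {g₀ : G} (hg₀ : g₀ ∈ In) (hχg₀ : χ g₀ ≠ 1) :
    ∀ h, γ h = (χ h - 1) • ((χ g₀ - 1)⁻¹ • γ g₀) := by
  have hne : χ g₀ - 1 ≠ 0 := sub_ne_zero.mpr hχg₀
  set x₀ : M := (χ g₀ - 1)⁻¹ • γ g₀ with hx₀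
  intro h
  have key := eq_zero_of_vanish In In₁ χ hcomm (fun g => γ g - (χ g - 1) • x₀)
    (fun s t => cocycle_sub_coboundary χ γ hγ x₀ s t)
    (fun n hn => by
      rw [hvan n hn, hχ₁ n hn, sub_self, zero_smul, sub_zero])
    hg₀ hχg₀
    (by
      rw [hx₀, smul_smul, mul_inv_cancel₀ hne, one_smul, sub_self]) h
  exact sub_eq_zero.mp key

end Fermat.Agent.S56.Flat.T2.CocycleLemma
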