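import Fermat.Agent.S32.HopfClosure

/-!
# S56, block (a3) `Flat`, supplement T2: the kernel of reduction (K1)

Frame of `S32/HopfClosure`: `R` a commutative ring, `K` a field over `R`, `κ : Γ → K →+* K`,
`T` an abelian group with an action `act`, `H ⊆ (T → K)` a Hopf order.  Extra data: a subring
`O ⊆ K` ("integers") and an additive subgroup `m ⊆ K` ("maximal ideal") with `O * m ⊆ m`, such that
all values of functions of `H` lie in `O`.

* `T0 H m` : the points `t` with `φ t - φ 0 ∈ m` for all `φ ∈ H` (kernel of reduction);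
* `sub_mem_of_decomp` : congruences modulo `m` add up along the comultiplication;
* `T0` is a subgroup (`T` finite), stable under `act` (`T0_act_mem`);
* `act_sub_mem_T0` : "inertia" (`κ σ x - x ∈ m` for `x ∈ O`) acts trivially on `T / T0`.
-/

set_option autoImplicit false

namespace Fermat.Agent.S56.Flat.T2.KerRed

open Fermat.Agent.S32.HopfClosure
open scoped BigOperators

variable {R K Γ : Type*} [CommRing R] [Field K] [Algebra R K] {κ : Γ → K →+* K}
variable {T : Type*} [AddCommGroup T] {act : Γ → T → T} {H : Subalgebra R (T → K)}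
variable (O : Subring K) (m : AddSubgroup K)

/-- The kernel of reduction, as a set. -/
def T0set (H : Subalgebra R (T → K)) (m : AddSubgroup K) : Set T :=
  {t | ∀ φ ∈ H, φ t - φ 0 ∈ m}

theorem mem_T0set {t : T} : t ∈ T0set H m ↔ ∀ φ ∈ H, φ t - φ 0 ∈ m := Iff.rfl

theorem zero_mem_T0set : (0 : T) ∈ T0set H m := fun φ _ => by
  rw [sub_self]; exact m.zero_mem

variable {O m}

/-- Congruences modulo `m` are compatible with the comultiplication. -/
theorem sub_mem_of_decomp (hOm : ∀ a ∈ O, ∀ x ∈ m, a * x ∈ m)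
    (hHO : ∀ φ ∈ H, ∀ t, φ t ∈ O) (hH : IsHopfOrder κ act H)
    {s s' t t' : T} (hs : ∀ φ ∈ H, φ s - φ s' ∈ m) (ht : ∀ φ ∈ H, φ t - φ t' ∈ m)
    {φ : T → K} (hφ : φ ∈ H) : φ (s + t) - φ (s' + t') ∈ m := by
  obtain ⟨ι, _, a, b, ha, hb, hab⟩ := hH.comul φ hφ
  replace hab : ∀ s t : T, φ (s + t) = ∑ i, a i s * b i t := hab
  have h1 : φ (s + t) - φ (s' + t') =
      ∑ i, (b i t * (a i s - a i s') + a i s' * (b i t - b i t')) := by
    rw [hab s t, hab s' t', ← Finset.sum_sub_distrib]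
    refine Finset.sum_congr rfl fun i _ => ?_
    ring
  rw [h1]
  refine m.sum_mem fun i _ => m.add_mem ?_ ?_
  · exact hOm _ (hHO _ (hb i) t) _ (hs _ (ha i))
  · exact hOm _ (hHO _ (ha i) s') _ (ht _ (hb i))

theorem add_mem_T0set (hOm : ∀ a ∈ O, ∀ x ∈ m, a * x ∈ m)
    (hHO : ∀ φ ∈ H, ∀ t, φ t ∈ O) (hH : IsHopfOrder κ act H)
    {s t : T} (hs : s ∈ T0set H m) (ht : t ∈ T0set H m) : s + t ∈ T0set H m := by
  intro φ hφ
  have := sub_mem_of_decomp hOm hHO hH hs ht hφ
  rwa [add_zero] at this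

theorem nsmul_mem_T0set (hOm : ∀ a ∈ O, ∀ x ∈ m, a * x ∈ m)
    (hHO : ∀ φ ∈ H, ∀ t, φ t ∈ O) (hH : IsHopfOrder κ act H)
    {t : T} (ht : t ∈ T0set H m) (n : ℕ) : n • t ∈ T0set H m := by
  induction n with
  | zero => rw [zero_smul]; exact zero_mem_T0set m
  | succ n ih => rw [succ_nsmul]; exact add_mem_T0set hOm hHO hH ih ht

theorem neg_mem_T0set [Finite T] (hOm : ∀ a ∈ O, ∀ x ∈ m, a * x ∈ m)
    (hHO : ∀ φ ∈ H, ∀ t, φ t ∈ O) (hH : IsHopfOrder κ act H)
    {t : T} (ht : t ∈ T0set H m) : -t ∈ T0set H m := by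
  have hpos : 0 < addOrderOf t := addOrderOf_pos t
  have h1 : (addOrderOf t - 1) • t + t = 0 := by
    rw [← succ_nsmul, Nat.sub_add_cancel hpos, addOrderOf_nsmul_eq_zero]
  rw [← eq_neg_of_add_eq_zero_left h1]
  exact nsmul_mem_T0set hOm hHO hH ht _

/-- **(K1)(a)** The kernel of reduction is a subgroup (for finite `T`). -/
def T0 [Finite T] (hOm : ∀ a ∈ O, ∀ x ∈ m, a * x ∈ m)
    (hHO : ∀ φ ∈ H, ∀ t, φ t ∈ O) (hH : IsHopfOrder κ act H) : AddSubgroup T where
  carrier := T0set H m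
  zero_mem' := zero_mem_T0set m
  add_mem' := fun hs ht => add_mem_T0set hOm hHO hH hs ht
  neg_mem' := fun ht => neg_mem_T0set hOm hHO hH ht

theorem mem_T0 [Finite T] (hOm : ∀ a ∈ O, ∀ x ∈ m, a * x ∈ m)
    (hHO : ∀ φ ∈ H, ∀ t, φ t ∈ O) (hH : IsHopfOrder κ act H) {t : T} :
    t ∈ T0 hOm hHO hH ↔ ∀ φ ∈ H, φ t - φ 0 ∈ m := Iff.rfl

/-- **(K1)(b)** The kernel of reduction is stable under the action. -/
theorem T0_act_mem (hH : IsHopfOrder κ act H) (σ : Γ) (hκm : ∀ x ∈ m, κ σ x ∈ m)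
    (hact0 : act σ 0 = 0) {t : T} (ht : t ∈ T0set H m) : act σ t ∈ T0set H m := by
  intro φ hφ
  have h0 : φ 0 = κ σ (φ 0) := by
    rw [← hH.equiv φ hφ σ 0, hact0]
  rw [hH.equiv φ hφ σ t, h0, ← map_sub]
  exact hκm _ (ht φ hφ)

/-- **(K1)(c)** Inertia acts trivially modulo the kernel of reduction: if `κ σ x - x ∈ m` for all
`x ∈ O`, then `act σ t - t` lies in the kernel of reduction. -/
theorem act_sub_mem_T0 (hOm : ∀ a ∈ O, ∀ x ∈ m, a * x ∈ m)
    (hHO : ∀ φ ∈ H, ∀ t, φ t ∈ O) (hH : IsHopfOrder κ act H)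
    (σ : Γ) (hσ : ∀ x ∈ O, κ σ x - x ∈ m) (t : T) : act σ t - t ∈ T0set H m := by
  intro φ hφ
  have h1 : ∀ ψ ∈ H, ψ (act σ t) - ψ t ∈ m := fun ψ hψ => by
    rw [hH.equiv ψ hψ σ t]
    exact hσ _ (hHO ψ hψ t)
  have h2 : ∀ ψ ∈ H, ψ (-t) - ψ (-t) ∈ m := fun ψ _ => by
    rw [sub_self]; exact m.zero_mem
  have := sub_mem_of_decomp hOm hHO hH h1 h2 hφ
  rwa [add_neg_cancel, ← sub_eq_add_neg] at this

/-- Values of a Hopf order lie in every valuation subring containing the image of `R`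
(integrality). -/
theorem apply_mem_valuationSubring (hH : IsHopfOrder κ act H) (A : ValuationSubring K)
    (hRA : ∀ r : R, algebraMap R K r ∈ A) {φ : T → K} (hφ : φ ∈ H) (t : T) : φ t ∈ A := by
  have : Module.Finite R H := hH.fg
  have hint : IsIntegral R (⟨φ, hφ⟩ : H) := IsIntegral.of_finite R _
  have hint' : IsIntegral R φ := by
    have := hint.map (H.val)
    simpa using this
  have hev : IsIntegral R (φ t) := by
    have := hint'.map (Pi.evalAlgHom R (fun _ : T => K) t)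
    simpa using this
  obtain ⟨P, hPm, hP⟩ := hev
  -- `φ t` is integral over the subring `A`
  have hintA : IsIntegral A (φ t) := by
    refine ⟨P.map ((algebraMap R K).codRestrict A.toSubring hRA), hPm.map _, ?_⟩
    rw [Polynomial.eval₂_map]
    have : (algebraMap A K).comp ((algebraMap R K).codRestrict A.toSubring hRA) =
        algebraMap R K := by
      ext r; rfl
    rw [this]
    exact hP
  have hic : IsIntegrallyClosed A := inferInstance
  obtain ⟨y, hy⟩ := (IsIntegrallyClosed.isIntegral_iff (R := A) (K := K)).mp hintA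
  rw [← hy]
  exact y.2

end Fermat.Agent.S56.Flat.T2.KerRed
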