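import Mathlib

/-!
# S56, block (a3) `Flat`, supplement T2: the linear algebra (T2-A), (T2-B)

Abstract form, independent of any cohomology model.  `V` is a `k`-vector space with an action
`ρbar : Γ → End_k V`, `Vp ≤ V` a stable subspace, `In ⊆ Γ` ("inertia").  A lift of `ρbar` to the
dual numbers with cocycle `c : Γ → End_k V` acts on `T = V × V` (`(v, v') ↔ v + ε v'`) by
`liftAct ρbar c g (v, v') = (ρbar g v, c g (ρbar g v) + ρbar g v')`.

The property `(★)` of `Star.star` / `Star.star_quotient` is taken as a HYPOTHESIS here: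

* `lowerLeft_mem` **(T2-B)** : if `In` acts trivially on `V / Vp` and `(★)` holds for the quotient
  of `T` by `N = 0 × Vp`, then for `g ∈ In` acting trivially on `Vp`, `c g` maps `Vp` into `Vp`
  (the lower-left entry of the cocycle vanishes at `g`);
* `trivial_of_star` **(T2-A)** : if `In` acts trivially on `Vp` and `(★)` holds for `V` itself, then
  every `g ∈ In` acting trivially on `V / Vp` acts trivially on `V`.
-/

set_option autoImplicit false

namespace Fermat.Agent.S56.Flat.T2.Shape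

variable {k V Γ : Type*} [Field k] [AddCommGroup V] [Module k V]

/-- The action of `(1 + ε c) ρbar` on `V × V = V ⊕ ε V`. -/
def liftAct (ρbar c : Γ → V →ₗ[k] V) (g : Γ) (s : V × V) : V × V :=
  (ρbar g s.1, c g (ρbar g s.1) + ρbar g s.2)

theorem liftAct_add (ρbar c : Γ → V →ₗ[k] V) (g : Γ) (s t : V × V) :
    liftAct ρbar c g (s + t) = liftAct ρbar c g s + liftAct ρbar c g t := by
  simp only [liftAct, Prod.fst_add, Prod.snd_add, map_add, Prod.mk_add_mk]
  congr 1
  abel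

/-- The subgroup `N = 0 × Vp` of `V × V` (i.e. `ε Vp`). -/
def epsSub (Vp : Submodule k V) : AddSubgroup (V × V) where
  carrier := {s | s.1 = 0 ∧ s.2 ∈ Vp}
  zero_mem' := ⟨rfl, Vp.zero_mem⟩
  add_mem' := by
    rintro s t ⟨hs1, hs2⟩ ⟨ht1, ht2⟩
    exact ⟨by rw [Prod.fst_add, hs1, ht1, add_zero], by rw [Prod.snd_add]; exact Vp.add_mem hs2 ht2⟩
  neg_mem' := by
    rintro s ⟨hs1, hs2⟩
    exact ⟨by rw [Prod.fst_neg, hs1, neg_zero], by rw [Prod.snd_neg]; exact Vp.neg_mem hs2⟩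

theorem mem_epsSub {Vp : Submodule k V} {s : V × V} : s ∈ epsSub Vp ↔ s.1 = 0 ∧ s.2 ∈ Vp :=
  Iff.rfl

/-- `ε Vp` is stable under the lifted action when `Vp` is `ρbar`-stable. -/
theorem liftAct_mem_epsSub (ρbar c : Γ → V →ₗ[k] V) {Vp : Submodule k V}
    (hVp : ∀ g, ∀ v ∈ Vp, ρbar g v ∈ Vp) (g : Γ) {s : V × V} (hs : s ∈ epsSub Vp) :
    liftAct ρbar c g s ∈ epsSub Vp := by
  obtain ⟨h1, h2⟩ := hs
  refine ⟨?_, ?_⟩
  · change ρbar g s.1 = 0
    rw [h1, map_zero]
  · change c g (ρbar g s.1) + ρbar g s.2 ∈ Vp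
    rw [h1, map_zero, map_zero, zero_add]
    exact hVp g _ h2

/-- **(T2-B)** The lower-left entry of the cocycle of a flat lift vanishes on the elements of
inertia acting trivially on `Vp`. -/
theorem lowerLeft_mem (ρbar c : Γ → V →ₗ[k] V) (Vp : Submodule k V) (In : Set Γ)
    (hquot : ∀ g ∈ In, ∀ v, ρbar g v - v ∈ Vp)
    (hstar : ∀ σ ∈ In, ∀ s : V × V,
      (∀ σ' ∈ In, liftAct ρbar c σ' (liftAct ρbar c σ s - s) - (liftAct ρbar c σ s - s)
        ∈ epsSub Vp) → liftAct ρbar c σ s - s ∈ epsSub Vp)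
    {g : Γ} (hg : g ∈ In) (hg1 : ∀ v ∈ Vp, ρbar g v = v) {v : V} (hv : v ∈ Vp) :
    c g v ∈ Vp := by
  have hx : liftAct ρbar c g (v, 0) - (v, 0) = (0, c g v) := by
    simp only [liftAct, hg1 v hv, map_zero, add_zero, Prod.mk_sub_mk, sub_self, sub_zero]
  have := hstar g hg (v, 0) (fun σ' hσ' => by
    rw [hx]
    refine ⟨?_, ?_⟩
    · simp [liftAct]
    · simp only [liftAct, map_zero, zero_add, Prod.snd_sub]
      exact hquot σ' hσ' _)
  rw [hx] at this
  exact this.2

/-- **(T2-A)** If inertia acts trivially on the stable subspace `Vp` and `(★)` holds for `V`, then an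
element of inertia acting trivially on `V / Vp` acts trivially on `V`. -/
theorem trivial_of_star (ρbar : Γ → V →ₗ[k] V) (Vp : Submodule k V) (In : Set Γ)
    (hsub : ∀ g ∈ In, ∀ v ∈ Vp, ρbar g v = v)
    (hstar : ∀ σ ∈ In, ∀ s : V,
      (∀ σ' ∈ In, ρbar σ' (ρbar σ s - s) = ρbar σ s - s) → ρbar σ s = s)
    {g : Γ} (hg : g ∈ In) (hgq : ∀ v, ρbar g v - v ∈ Vp) (v : V) : ρbar g v = v :=
  hstar g hg v fun σ' hσ' => hsub σ' hσ' _ (hgq v)

end Fermat.Agent.S56.Flat.T2.Shape
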