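import Fermat.Agent.S56.Flat.T2.Star
import Fermat.Agent.S56.Flat.T2.Shape
import Fermat.Agent.CFT.Local.PadicAlgCl

/-!
# S56, block (a3) `Flat`, supplement T2: the local instance of the frame

Frame `(loc)`: `R = ℤ_[p]`, `F = ℚ_[p]`, `K = Ω = PadicAlgCl p`, `Γ = LocGal p` acting through
`kap`, `O` = closed unit ball, `m` = open unit ball, `In = localInertia p` (main's
`CFT/LocalBridge/Inertia`, `CFT/Local/PadicAlgCl`).

* `ballV`, `ballO`, `ballM` and the frame hypotheses `hOm`, `hIn`, `hunr`, `hsep`, `hfixF`, `hHO`;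
* `star_quotient_loc` : `(★)` for quotients of a locally flat module killed by `p ≥ 3`;
* `lowerLeft_mem_loc` **(T2-B)** and `trivial_of_flat_loc` **(T2-A)** in this frame, with the Hopf
  order as an explicit hypothesis.
-/

set_option autoImplicit false
set_option linter.unusedSectionVars false

noncomputable section

namespace Fermat.Agent.S56.Flat.T2.Loc

open Fermat.Agent.S32.HopfClosure Fermat.Agent.CFT.LocalBridge
  Fermat.Agent.CFT.Local.PadicAlgClLocal Fermat.Agent.S56.Flat.T2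

variable (p : ℕ) [Fact p.Prime]

local notation "Ω" => PadicAlgCl p

/-- The local Galois group acting on `Ω` by ring endomorphisms. -/
def kap : LocGal p → Ω →+* Ω := fun τ => (τ : Ω →+* Ω)

@[simp] theorem kap_apply (τ : LocGal p) (x : Ω) : kap p τ x = τ x := rfl

/-- The closed unit ball of `Ω` as a valuation subring. -/
def ballV : ValuationSubring Ω where
  carrier := {x | ‖x‖ ≤ 1}
  mul_mem' := by
    intro a b ha hb
    change ‖a * b‖ ≤ 1
    rw [norm_mul]
    exact mul_le_one₀ ha (norm_nonneg b) hb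
  one_mem' := by
    change ‖(1 : Ω)‖ ≤ 1
    rw [norm_one]
  add_mem' := by
    intro a b ha hb
    exact (IsUltrametricDist.norm_add_le_max a b).trans (max_le ha hb)
  zero_mem' := by
    change ‖(0 : Ω)‖ ≤ 1
    rw [norm_zero]; exact zero_le_one
  neg_mem' := by
    intro a ha
    change ‖-a‖ ≤ 1
    rwa [norm_neg]
  mem_or_inv_mem' := by
    intro a
    rcases le_total ‖a‖ 1 with h | h
    · exact Or.inl h
    · right
      change ‖a⁻¹‖ ≤ 1
      rw [norm_inv]
      exact inv_le_one_of_one_le₀ h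

theorem mem_ballV {x : Ω} : x ∈ ballV p ↔ ‖x‖ ≤ 1 := Iff.rfl

/-- The closed unit ball as a subring. -/
def ballO : Subring Ω := (ballV p).toSubring

theorem mem_ballO {x : Ω} : x ∈ ballO p ↔ ‖x‖ ≤ 1 := Iff.rfl

/-- The open unit ball as an additive subgroup. -/
def ballM : AddSubgroup Ω where
  carrier := {x | ‖x‖ < 1}
  add_mem' := by
    intro a b ha hb
    exact lt_of_le_of_lt (IsUltrametricDist.norm_add_le_max a b) (max_lt ha hb)
  zero_mem' := by
    change ‖(0 : Ω)‖ < 1
    rw [norm_zero]; exact zero_lt_one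
  neg_mem' := by
    intro a ha
    change ‖-a‖ < 1
    rwa [norm_neg]

theorem mem_ballM {x : Ω} : x ∈ ballM p ↔ ‖x‖ < 1 := Iff.rfl

theorem hOm : ∀ a ∈ ballO p, ∀ x ∈ ballM p, a * x ∈ ballM p := by
  intro a ha x hx
  rw [mem_ballO] at ha
  rw [mem_ballM] at hx ⊢
  rw [norm_mul]
  calc ‖a‖ * ‖x‖ ≤ 1 * ‖x‖ := mul_le_mul_of_nonneg_right ha (norm_nonneg x)
    _ = ‖x‖ := one_mul _
    _ < 1 := hx

theorem hIn : ∀ τ ∈ (localInertia p : Set (LocGal p)), ∀ x ∈ ballO p,
    kap p τ x - x ∈ ballM p := fun _ hτ x hx => hτ x hx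

theorem norm_p : ‖((p : ℕ) : Ω)‖ = (p : ℝ)⁻¹ := by
  have h1 : ((p : ℕ) : Ω) = algebraMap ℚ_[p] Ω (p : ℚ_[p]) := by rw [map_natCast]
  rw [h1, norm_algebraMap', Padic.norm_p]

theorem p_ne_zero : ((p : ℕ) : Ω) ≠ 0 := by
  rw [← norm_pos_iff, norm_p]
  have : (0 : ℝ) < p := by exact_mod_cast (Fact.out : p.Prime).pos
  positivity

/-- **Unramifiedness input.** An element of the open unit ball which is fixed by inertia is
divisible by `p` in the closed unit ball. -/
theorem hunr : ∀ y ∈ ballM p, (∀ τ ∈ (localInertia p : Set (LocGal p)), kap p τ y = y) →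
    ∃ z ∈ ballO p, y = ((p : ℕ) : Ω) * z := by
  intro y hy hfix
  have hp0 : (0 : ℝ) < p := by exact_mod_cast (Fact.out : p.Prime).pos
  have hp1 : (1 : ℝ) < p := by exact_mod_cast (Fact.out : p.Prime).one_lt
  by_cases hy0 : y = 0
  · exact ⟨0, (ballO p).zero_mem, by rw [hy0, mul_zero]⟩
  -- `y` lies in the maximal unramified extension
  have hmem : y ∈ nrField p := by
    rw [← InfiniteGalois.fixedField_fixingSubgroup (nrField p), ← localInertia_eq_fixingSubgroup]
    rw [IntermediateField.mem_fixedField_iff]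
    intro τ hτ
    exact hfix τ hτ
  obtain ⟨M, hM, hyM⟩ := exists_mem_cycField_of_mem_nrField p hmem
  have hM0 : M ≠ 0 := fun h0 => hM (h0 ▸ dvd_zero p)
  have := finiteDimensional_cycField p hM0
  obtain ⟨k, hk⟩ := (ramIdx_eq_one_iff_norm p (cycField p M)).mp (ramIdx_cycField_eq_one p hM)
    y hyM hy0
  rw [mem_ballM, hk] at hy
  have hk1 : k ≤ -1 := by
    by_contra hcon
    push Not at hcon
    have hk0 : 0 ≤ k := by omega
    have : (1 : ℝ) ≤ (p : ℝ) ^ k := one_le_zpow₀ hp1.le hk0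
    linarith
  refine ⟨y / ((p : ℕ) : Ω), ?_, by rw [mul_div_cancel₀ _ (p_ne_zero p)]⟩
  rw [mem_ballO, norm_div, norm_p, hk, div_eq_mul_inv, inv_inv, ← zpow_add_one₀ hp0.ne']
  exact zpow_le_one_of_nonpos₀ hp1.le (by omega)

/-- `p`-adic separatedness of the closed unit ball. -/
theorem hsep : ∀ y : Ω, (∀ n : ℕ, ∃ z ∈ ballO p, y = ((p : ℕ) : Ω) ^ n * z) → y = 0 := by
  intro y h
  have hp1 : (1 : ℝ) < p := by exact_mod_cast (Fact.out : p.Prime).one_lt
  have hp0 : (0 : ℝ) < p := by linarith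
  by_contra hy
  have hpos : 0 < ‖y‖ := norm_pos_iff.mpr hy
  obtain ⟨n, hn⟩ := exists_pow_lt_of_lt_one hpos (inv_lt_one_of_one_lt₀ hp1)
  obtain ⟨z, hz, hyz⟩ := h n
  rw [mem_ballO] at hz
  have : ‖y‖ ≤ ((p : ℝ)⁻¹) ^ n := by
    rw [hyz, norm_mul, norm_pow, norm_p]
    calc ((p : ℝ)⁻¹) ^ n * ‖z‖ ≤ ((p : ℝ)⁻¹) ^ n * 1 :=
          mul_le_mul_of_nonneg_left hz (by positivity)
      _ = ((p : ℝ)⁻¹) ^ n := mul_one _
  linarith

/-- The fixed field of the local Galois group is `ℚ_[p]`. -/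
theorem hfixF : ∀ x : Ω, (∀ τ, kap p τ x = x) → x ∈ Set.range (algebraMap ℚ_[p] Ω) := by
  intro x hx
  have h1 : x ∈ IntermediateField.fixedField
      ((⊥ : IntermediateField ℚ_[p] Ω).fixingSubgroup) := by
    rw [IntermediateField.mem_fixedField_iff]
    intro τ _
    exact hx τ
  rw [InfiniteGalois.fixedField_fixingSubgroup, IntermediateField.mem_bot] at h1
  exact h1

theorem algebraMap_mem_ballV (r : ℤ_[p]) : algebraMap ℤ_[p] Ω r ∈ ballV p := by
  rw [mem_ballV, IsScalarTower.algebraMap_apply ℤ_[p] ℚ_[p] Ω, norm_algebraMap']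
  exact PadicInt.norm_le_one r

/-- Values of a local Hopf order lie in the closed unit ball. -/
theorem hHO {T : Type*} [AddCommGroup T] {act : LocGal p → T → T}
    {H : Subalgebra ℤ_[p] (T → Ω)} (hH : IsHopfOrder (kap p) act H) :
    ∀ φ ∈ H, ∀ t, φ t ∈ ballO p := fun _ hφ t =>
  KerRed.apply_mem_valuationSubring hH (ballV p) (algebraMap_mem_ballV p) hφ t

/-- **`(★)` for quotients, local frame.** -/
theorem star_quotient_loc (hp3 : 3 ≤ p) {T : Type*} [AddCommGroup T] [Finite T]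
    {act : LocGal p → T → T} {H : Subalgebra ℤ_[p] (T → Ω)}
    (hH : IsHopfOrder (kap p) act H) (hpT : ∀ t : T, p • t = 0)
    (hadd : ∀ σ s t, act σ (s + t) = act σ s + act σ t)
    (hsurj : ∀ σ, Function.Surjective (act σ))
    (N : AddSubgroup T) (hN : ∀ σ, ∀ t ∈ N, act σ t ∈ N)
    {σ : LocGal p} (hσ : σ ∈ localInertia p) (s : T)
    (hfix : ∀ σ' ∈ localInertia p, act σ' (act σ s - s) - (act σ s - s) ∈ N) :
    act σ s - s ∈ N :=
  Star.star_quotient (F := ℚ_[p]) (Fact.out : p.Prime) hp3 (p_ne_zero p) (hfixF p) (hOm p)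
    (hHO p hH) hH hpT hadd hsurj (localInertia p : Set (LocGal p)) (hIn p) (hunr p) (hsep p)
    N hN hσ s hfix

section Lift

variable {p}
variable {k V : Type*} [Field k] [AddCommGroup V] [Module k V] [Finite V]

theorem liftAct_surjective (ρbar : LocGal p →* Module.End k V) (c : LocGal p → V →ₗ[k] V)
    (g : LocGal p) : Function.Surjective (Shape.liftAct (fun g => ρbar g) c g) := by
  have hinv : ∀ w, ρbar g (ρbar g⁻¹ w) = w := fun w => by
    rw [← Module.End.mul_apply, ← map_mul, mul_inv_cancel, map_one, Module.End.one_apply]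
  rintro ⟨w, w'⟩
  refine ⟨(ρbar g⁻¹ w, ρbar g⁻¹ (w' - c g w)), ?_⟩
  simp only [Shape.liftAct, hinv, add_sub_cancel]

/-- **(T2-B), local frame.**  If `V × V` with the action of `(1 + ε c) ρbar` carries a local Hopf
order, `Vp` is a stable subspace on whose quotient inertia acts trivially, then for `g` in inertia
acting trivially on `Vp` the endomorphism `c g` maps `Vp` into `Vp`. -/
theorem lowerLeft_mem_loc (hp3 : 3 ≤ p) (hpV : ∀ v : V, p • v = 0)
    (ρbar : LocGal p →* Module.End k V) (c : LocGal p → V →ₗ[k] V)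
    (Vp : Submodule k V) (hVp : ∀ g, ∀ v ∈ Vp, ρbar g v ∈ Vp)
    (hquot : ∀ g ∈ localInertia p, ∀ v, ρbar g v - v ∈ Vp)
    (H : Subalgebra ℤ_[p] (V × V → PadicAlgCl p))
    (hH : IsHopfOrder (kap p) (Shape.liftAct (fun g => ρbar g) c) H)
    {g : LocGal p} (hg : g ∈ localInertia p) (hg1 : ∀ v ∈ Vp, ρbar g v = v)
    {v : V} (hv : v ∈ Vp) : c g v ∈ Vp := by
  refine Shape.lowerLeft_mem (fun g => ρbar g) c Vp (localInertia p : Set (LocGal p)) hquot
    (fun σ hσ s hfix => ?_) hg hg1 hv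
  exact star_quotient_loc p hp3 hH
    (fun t => by
      ext
      · simp [hpV]
      · simp [hpV])
    (fun σ s t => Shape.liftAct_add _ c σ s t) (liftAct_surjective ρbar c)
    (Shape.epsSub Vp) (fun σ t ht => Shape.liftAct_mem_epsSub _ c hVp σ ht) hσ s hfix

/-- **(T2-A), local frame.**  If `V` itself carries a local Hopf order, inertia acts trivially on
the stable subspace `Vp`, then an element of inertia acting trivially on `V / Vp` acts trivially
on `V`. -/
theorem trivial_of_flat_loc (hp3 : 3 ≤ p) (hpV : ∀ v : V, p • v = 0)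
    (ρbar : LocGal p →* Module.End k V) (Vp : Submodule k V)
    (hsub : ∀ g ∈ localInertia p, ∀ v ∈ Vp, ρbar g v = v)
    (H : Subalgebra ℤ_[p] (V → PadicAlgCl p))
    (hH : IsHopfOrder (kap p) (fun g v => ρbar g v) H)
    {g : LocGal p} (hg : g ∈ localInertia p) (hgq : ∀ v, ρbar g v - v ∈ Vp) (v : V) :
    ρbar g v = v := by
  refine Shape.trivial_of_star (fun g => ρbar g) Vp (localInertia p : Set (LocGal p)) hsub
    (fun σ hσ s hfix => ?_) hg hgq v
  have hsurj : ∀ σ : LocGal p, Function.Surjective (fun v => ρbar σ v) := fun σ w =>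
    ⟨ρbar σ⁻¹ w, by
      change ρbar σ (ρbar σ⁻¹ w) = w
      rw [← Module.End.mul_apply, ← map_mul, mul_inv_cancel, map_one, Module.End.one_apply]⟩
  have := star_quotient_loc p hp3 hH hpV (fun σ s t => map_add (ρbar σ) s t) hsurj ⊥
    (fun σ t ht => by
      rw [AddSubgroup.mem_bot] at ht ⊢
      rw [ht, map_zero]) hσ s
    (fun σ' hσ' => by
      rw [AddSubgroup.mem_bot, sub_eq_zero]
      exact hfix σ' hσ')
  rwa [AddSubgroup.mem_bot, sub_eq_zero] at this

end Lift

end Fermat.Agent.S56.Flat.T2.Loc
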