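import Fermat.Agent.S56.Flat.T2.KerRed

/-!
# S56, block (a3) `Flat`, supplement T2: no unramified point in the kernel of reduction (K2)

Function-level form of "uniqueness of `p`-th roots near `1`" ((R0) of the `Flat` chain), proved with
the translation operator instead of the convolution algebra.

Frame of `S32/HopfClosure` plus a subring `O ⊆ K` containing all values of `H`.  Let `t ∈ T` with
`p • t = 0`, `p ≥ 3` prime, and assume `φ t ≡ φ 0` modulo `p O` for all `φ ∈ H`.  Let `τ` be the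
translation `f ↦ f (· + t)` on `T → K` and `D = τ - 1`.  On the `O`-span `𝓗` of `H` one has
`D 𝓗 ⊆ p 𝓗` (comultiplication), and `(1 + D)^p = 1` bootstraps `D 𝓗 ⊆ p^n 𝓗` to
`D 𝓗 ⊆ p^(n+1) 𝓗` (`1 + 2 n ≥ n + 2`, `p n ≥ n + 2`).  Hence `φ t - φ 0 ∈ ⋂ p^n O = 0` and `t = 0`.

Main statement: `eq_zero_of_congr`.
-/

set_option autoImplicit false
set_option linter.unusedSectionVars false

namespace Fermat.Agent.S56.Flat.T2.NoUnram

open Fermat.Agent.S32.HopfClosure
open scoped BigOperators

variable {R K Γ : Type*} [CommRing R] [Field K] [Algebra R K] {κ : Γ → K →+* K}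
variable {T : Type*} [AddCommGroup T] {act : Γ → T → T} {H : Subalgebra R (T → K)}

/-- Translation by `t` on functions. -/
def trans (K : Type*) [Field K] {T : Type*} [AddCommGroup T] (t : T) : Module.End K (T → K) where
  toFun f := fun s => f (s + t)
  map_add' _ _ := rfl
  map_smul' _ _ := rfl

@[simp] theorem trans_apply (t : T) (f : T → K) (s : T) : trans K t f s = f (s + t) := rfl

theorem trans_pow_apply (t : T) (n : ℕ) (f : T → K) (s : T) :
    ((trans K t) ^ n) f s = f (s + n • t) := by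
  induction n generalizing f s with
  | zero => simp
  | succ n ih =>
    rw [pow_succ, Module.End.mul_apply, ih, trans_apply, succ_nsmul, add_assoc]

theorem trans_pow_eq_one {t : T} {p : ℕ} (hpt : p • t = 0) : (trans K t) ^ p = 1 := by
  ext f s
  rw [trans_pow_apply, hpt, add_zero]
  rfl

/-- The difference operator `D = τ - 1`. -/
def diff (K : Type*) [Field K] {T : Type*} [AddCommGroup T] (t : T) : Module.End K (T → K) :=
  trans K t - 1

theorem diff_apply (t : T) (f : T → K) (s : T) : diff K t f s = f (s + t) - f s := rfl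

variable (O : Subring K) (p : ℕ)

/-- `f` is `p ^ j` times an element of the `O`-span of `H`. -/
def InPow (H : Subalgebra R (T → K)) (j : ℕ) (f : T → K) : Prop :=
  ∃ ψ ∈ Submodule.span O (H : Set (T → K)), f = ((p : K) ^ j) • ψ

variable {O p}

namespace InPow

theorem zero (j : ℕ) : InPow O p H j 0 := ⟨0, Submodule.zero_mem _, by simp⟩

theorem add {j : ℕ} {f g : T → K} (hf : InPow O p H j f) (hg : InPow O p H j g) :
    InPow O p H j (f + g) := by
  obtain ⟨ψ, hψ, rfl⟩ := hf
  obtain ⟨ψ', hψ', rfl⟩ := hg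
  exact ⟨ψ + ψ', Submodule.add_mem _ hψ hψ', by rw [smul_add]⟩

theorem neg {j : ℕ} {f : T → K} (hf : InPow O p H j f) : InPow O p H j (-f) := by
  obtain ⟨ψ, hψ, rfl⟩ := hf
  exact ⟨-ψ, Submodule.neg_mem _ hψ, by rw [smul_neg]⟩

theorem sum {ι : Type*} (s : Finset ι) {j : ℕ} {f : ι → T → K}
    (hf : ∀ i ∈ s, InPow O p H j (f i)) : InPow O p H j (∑ i ∈ s, f i) := by
  classical
  induction s using Finset.induction_on with
  | empty => simpa using zero (O := O) (p := p) (H := H) j
  | insert a s ha ih =>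
    rw [Finset.sum_insert ha]
    exact (hf a (Finset.mem_insert_self a s)).add
      (ih fun i hi => hf i (Finset.mem_insert_of_mem hi))

theorem smul_mem {j : ℕ} {f : T → K} (hf : InPow O p H j f) {a : K} (ha : a ∈ O) :
    InPow O p H j (a • f) := by
  obtain ⟨ψ, hψ, rfl⟩ := hf
  refine ⟨(⟨a, ha⟩ : O) • ψ, Submodule.smul_mem _ _ hψ, ?_⟩
  rw [Subring.smul_def, smul_comm]

theorem natCast_smul {j : ℕ} {f : T → K} (hf : InPow O p H j f) (c : ℕ) :
    InPow O p H j ((c : K) • f) := hf.smul_mem (natCast_mem O c)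

theorem pow_smul {j : ℕ} {f : T → K} (hf : InPow O p H j f) (i : ℕ) :
    InPow O p H (j + i) (((p : K) ^ i) • f) := by
  obtain ⟨ψ, hψ, rfl⟩ := hf
  exact ⟨ψ, hψ, by rw [smul_smul, pow_add, mul_comm]⟩

theorem mono {i j : ℕ} (hij : i ≤ j) {f : T → K} (hf : InPow O p H j f) : InPow O p H i f := by
  obtain ⟨ψ, hψ, rfl⟩ := hf
  have hmem : (p : K) ^ (j - i) ∈ O := pow_mem (natCast_mem O p) _
  refine ⟨(⟨(p : K) ^ (j - i), hmem⟩ : O) • ψ, Submodule.smul_mem _ _ hψ, ?_⟩
  rw [Subring.smul_def, smul_smul, ← pow_add, Nat.add_sub_cancel' hij]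

theorem of_mem_span {f : T → K} (hf : f ∈ Submodule.span O (H : Set (T → K))) :
    InPow O p H 0 f := ⟨f, hf, by simp⟩

theorem mem_span {f : T → K} (hf : InPow O p H 0 f) : f ∈ Submodule.span O (H : Set (T → K)) := by
  obtain ⟨ψ, hψ, rfl⟩ := hf
  simpa using hψ

end InPow

/-- Values of the `O`-span of `H` lie in `O`. -/
theorem span_apply_mem (hHO : ∀ φ ∈ H, ∀ t, φ t ∈ O) {ψ : T → K}
    (hψ : ψ ∈ Submodule.span O (H : Set (T → K))) (s : T) : ψ s ∈ O := by
  induction hψ using Submodule.span_induction with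
  | mem x hx => exact hHO x hx s
  | zero => exact O.zero_mem
  | add x y _ _ hx hy => exact O.add_mem hx hy
  | smul a x _ hx =>
    rw [Pi.smul_apply, Subring.smul_def, smul_eq_mul]
    exact O.mul_mem a.2 hx

/-- The property `P n`: the difference operator maps the `O`-span of `H` into `p ^ n` times
itself. -/
def MapsInto (O : Subring K) (p : ℕ) (H : Subalgebra R (T → K)) (t : T) (n : ℕ) : Prop :=
  ∀ ψ ∈ Submodule.span O (H : Set (T → K)), InPow O p H n (diff K t ψ)

theorem MapsInto.inPow {t : T} {n : ℕ} (hP : MapsInto O p H t n) {j : ℕ} {f : T → K}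
    (hf : InPow O p H j f) : InPow O p H (n + j) (diff K t f) := by
  obtain ⟨ψ, hψ, rfl⟩ := hf
  rw [map_smul]
  exact (hP ψ hψ).pow_smul j

theorem MapsInto.pow {t : T} {n : ℕ} (hP : MapsInto O p H t n) (l : ℕ) {ψ : T → K}
    (hψ : ψ ∈ Submodule.span O (H : Set (T → K))) :
    InPow O p H (l * n) (((diff K t) ^ l) ψ) := by
  induction l with
  | zero => simpa using InPow.of_mem_span hψ
  | succ l ih =>
    rw [pow_succ', Module.End.mul_apply]
    have := hP.inPow ih
    rwa [show n + l * n = (l + 1) * n by ring] at this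

/-- Base case: if `φ t ≡ φ 0` modulo `p O` for all `φ ∈ H` then `D` maps the span into `p` times
the span. -/
theorem mapsInto_one (hH : IsHopfOrder κ act H) {t : T}
    (hP1 : ∀ φ ∈ H, ∃ z ∈ O, φ t - φ 0 = (p : K) * z) : MapsInto O p H t 1 := by
  intro ψ hψ
  induction hψ using Submodule.span_induction with
  | mem φ hφ =>
    obtain ⟨ι, _, a, b, ha, hb, hab⟩ := hH.comul φ hφ
    replace hab : ∀ s t : T, φ (s + t) = ∑ i, a i s * b i t := hab
    choose z hzO hz using fun i => hP1 (b i) (hb i)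
    refine ⟨∑ i, (⟨z i, hzO i⟩ : O) • a i, Submodule.sum_mem _ fun i _ =>
      Submodule.smul_mem _ _ (Submodule.subset_span (ha i)), ?_⟩
    funext s
    have e1 : φ (s + t) = ∑ i, a i s * b i t := hab s t
    have e2 : φ s = ∑ i, a i s * b i 0 := by
      have := hab s 0
      rwa [add_zero] at this
    rw [diff_apply, e1, e2, ← Finset.sum_sub_distrib, Pi.smul_apply, Finset.sum_apply,
      smul_eq_mul, Finset.mul_sum]
    refine Finset.sum_congr rfl fun i _ => ?_
    rw [Pi.smul_apply, Subring.smul_def, smul_eq_mul, ← mul_sub, hz i, pow_one]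
    ring
  | zero => rw [map_zero]; exact InPow.zero 1
  | add x y _ _ hx hy => rw [map_add]; exact hx.add hy
  | smul a x _ hx =>
    rw [Subring.smul_def, map_smul]
    exact hx.smul_mem a.2

/-- Bootstrap: `P n → P (n + 1)` for `n ≥ 1`, `p ≥ 3` prime, `p • t = 0`. -/
theorem mapsInto_succ (hp : p.Prime) (hp3 : 3 ≤ p) (hpK : (p : K) ≠ 0) {t : T} (hpt : p • t = 0)
    {n : ℕ} (hn : 1 ≤ n) (hP : MapsInto O p H t n) : MapsInto O p H t (n + 1) := by
  intro ψ hψ
  obtain ⟨q, rfl⟩ : ∃ q, p = q + 2 := ⟨p - 2, by omega⟩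
  set D := diff K t with hD
  -- binomial expansion of `τ ^ p = 1`
  have hτ : (D + 1) ^ (q + 2) = 1 := by
    have : D + 1 = trans K t := by rw [hD, diff, sub_add_cancel]
    rw [this]
    exact trans_pow_eq_one hpt
  rw [(Commute.one_right D).add_pow] at hτ
  have h1 := congrArg (fun E : Module.End K (T → K) => E ψ) hτ
  simp only [one_pow, mul_one, Module.End.one_apply] at h1
  rw [LinearMap.sum_apply, Finset.sum_range_succ', Finset.sum_range_succ'] at h1
  simp only [pow_zero, Nat.choose_zero_right, Nat.cast_one, mul_one, Module.End.one_apply,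
    zero_add, pow_one, Nat.choose_one_right] at h1
  -- each higher term is divisible by `p ^ (n + 2)`
  have hterm : ∀ m ∈ Finset.range (q + 1),
      InPow O (q + 2) H (n + 2) ((D ^ (m + 1 + 1) * (((q + 2).choose (m + 1 + 1) : ℕ) :
        Module.End K (T → K))) ψ) := by
    intro m hm
    rw [Finset.mem_range] at hm
    have hcast : ∀ c : ℕ, ((D ^ (m + 1 + 1) * ((c : ℕ) : Module.End K (T → K))) ψ) =
        (c : K) • ((D ^ (m + 1 + 1)) ψ) := by
      intro c
      rw [Module.End.mul_apply]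
      have : ((c : ℕ) : Module.End K (T → K)) ψ = (c : K) • ψ := by
        rw [← nsmul_one, LinearMap.smul_apply, Module.End.one_apply, Nat.cast_smul_eq_nsmul]
      rw [this, map_smul]
    rw [hcast]
    have hpow := hP.pow (m + 1 + 1) hψ
    rcases Nat.lt_or_ge (m + 2) (q + 2) with hlt | hge
    · obtain ⟨c, hc⟩ := hp.dvd_choose_self (k := m + 1 + 1) (by omega) (by omega)
      rw [hc, Nat.cast_mul, mul_smul]
      have h2 : InPow O (q + 2) H (2 * n) ((D ^ (m + 1 + 1)) ψ) :=
        hpow.mono (Nat.mul_le_mul_right n (by omega))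
      have h3 := (h2.natCast_smul c).pow_smul 1
      rw [pow_one] at h3
      exact h3.mono (by omega)
    · have hm' : m + 1 + 1 = q + 2 := by omega
      rw [hm', Nat.choose_self, Nat.cast_one, one_smul]
      rw [hm'] at hpow
      refine hpow.mono ?_
      nlinarith
  have hsum := InPow.sum (Finset.range (q + 1)) hterm
  -- isolate `p • D ψ`
  have h2 : (((q + 2 : ℕ) : K)) • D ψ =
      -(∑ m ∈ Finset.range (q + 1), (D ^ (m + 1 + 1) * (((q + 2).choose (m + 1 + 1) : ℕ) :
        Module.End K (T → K))) ψ) := by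
    have h3 : (D * (((q + 2 : ℕ)) : Module.End K (T → K))) ψ = (((q + 2 : ℕ) : K)) • D ψ := by
      rw [Module.End.mul_apply]
      have : (((q + 2 : ℕ)) : Module.End K (T → K)) ψ = (((q + 2 : ℕ)) : K) • ψ := by
        rw [← nsmul_one, LinearMap.smul_apply, Module.End.one_apply, Nat.cast_smul_eq_nsmul]
      rw [this, map_smul]
    rw [← h3]
    exact eq_neg_of_add_eq_zero_right (add_eq_right.mp h1)
  obtain ⟨ψ', hψ', h6⟩ := hsum.neg
  rw [← h2] at h6
  refine ⟨ψ', hψ', ?_⟩
  have h7 : (((q + 2 : ℕ) : K)) • D ψ = (((q + 2 : ℕ) : K)) • ((((q + 2 : ℕ) : K)) ^ (n + 1) • ψ') := by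
    rw [h6, smul_smul, ← pow_succ']
  exact smul_right_injective _ hpK h7

theorem mapsInto_all (hp : p.Prime) (hp3 : 3 ≤ p) (hpK : (p : K) ≠ 0)
    (hH : IsHopfOrder κ act H) {t : T} (hpt : p • t = 0)
    (hP1 : ∀ φ ∈ H, ∃ z ∈ O, φ t - φ 0 = (p : K) * z) (n : ℕ) (hn : 1 ≤ n) :
    MapsInto O p H t n := by
  induction n, hn using Nat.le_induction with
  | base => exact mapsInto_one hH hP1
  | succ n hn ih => exact mapsInto_succ hp hp3 hpK hpt hn ih

/-- **(K2), function level.**  A point `t` of order `p ≥ 3` whose evaluation is congruent to the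
evaluation at `0` modulo `p O` is `0`, provided `O` is `p`-adically separated. -/
theorem eq_zero_of_congr (hp : p.Prime) (hp3 : 3 ≤ p) (hpK : (p : K) ≠ 0)
    (hHO : ∀ φ ∈ H, ∀ t, φ t ∈ O) (hH : IsHopfOrder κ act H) {t : T} (hpt : p • t = 0)
    (hP1 : ∀ φ ∈ H, ∃ z ∈ O, φ t - φ 0 = (p : K) * z)
    (hsep : ∀ y : K, (∀ n : ℕ, ∃ z ∈ O, y = (p : K) ^ n * z) → y = 0) : t = 0 := by
  by_contra ht
  obtain ⟨φ, hφ, hne⟩ := hH.sep t 0 ht
  apply hne
  rw [← sub_eq_zero]
  apply hsep
  intro n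
  rcases Nat.eq_zero_or_pos n with rfl | hn
  · exact ⟨φ t - φ 0, O.sub_mem (hHO φ hφ t) (hHO φ hφ 0), by simp⟩
  · obtain ⟨ψ', hψ', h⟩ := mapsInto_all hp hp3 hpK hH hpt hP1 n hn φ (Submodule.subset_span hφ)
    refine ⟨ψ' 0, span_apply_mem hHO hψ' 0, ?_⟩
    have := congrFun h 0
    rw [diff_apply, zero_add, Pi.smul_apply, smul_eq_mul] at this
    exact this

end Fermat.Agent.S56.Flat.T2.NoUnram
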