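import Fermat.Agent.S56.Flat.T2.NoUnram

/-!
# S56, block (a3) `Flat`, supplement T2: the property `(★)` (K3), (K4)

Frame of `S32/HopfClosure` + `O`, `m` as in `KerRed`.  `In : Set Γ` is a set of "inertia" elements:
`κ σ x - x ∈ m` for all `x ∈ O`, `σ ∈ In`.  The *unramifiedness input* `hunr` says that an element
of `m` which is fixed by all of `In` is divisible by `p` in `O`; `hsep` says that `O` is `p`-adically
separated.  Then, for a Hopf order `H` on a finite group `T` killed by an odd prime `p`: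

* `eq_zero_of_mem_T0set_of_fixed` **(K2)** : a point of the kernel of reduction which is fixed by
  `In` is `0`;
* `star` **(K3)** : `(In - 1) T ∩ T^In = 0`, in the form: if `act σ s - s` is fixed by `In`
  (`σ ∈ In`) then `act σ s = s`;
* `star_quotient` **(K4)** : the same on every quotient `T ⧸ N` by an `act`-stable subgroup, in
  terms of `T` itself: if `act σ' x - x ∈ N` for all `σ' ∈ In`, where `x = act σ s - s`, `σ ∈ In`,
  then `x ∈ N`.
-/

set_option autoImplicit false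

namespace Fermat.Agent.S56.Flat.T2.Star

open Fermat.Agent.S32.HopfClosure Fermat.Agent.S56.Flat.T2.KerRed Fermat.Agent.S56.Flat.T2.NoUnram

section Basic

variable {R K Γ : Type*} [CommRing R] [Field K] [Algebra R K] {κ : Γ → K →+* K}
variable {T : Type*} [AddCommGroup T] {act : Γ → T → T} {H : Subalgebra R (T → K)}
variable {O : Subring K} {m : AddSubgroup K} {p : ℕ}

/-- **(K2)** No non-zero `In`-fixed point in the kernel of reduction. -/
theorem eq_zero_of_mem_T0set_of_fixed (hp : p.Prime) (hp3 : 3 ≤ p) (hpK : (p : K) ≠ 0)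
    (hHO : ∀ φ ∈ H, ∀ t, φ t ∈ O) (hH : IsHopfOrder κ act H)
    (In : Set Γ) (hact0 : ∀ σ ∈ In, act σ 0 = 0)
    (hunr : ∀ y ∈ m, (∀ σ ∈ In, κ σ y = y) → ∃ z ∈ O, y = (p : K) * z)
    (hsep : ∀ y : K, (∀ n : ℕ, ∃ z ∈ O, y = (p : K) ^ n * z) → y = 0)
    {t : T} (hpt : p • t = 0) (ht0 : t ∈ T0set H m) (hfix : ∀ σ ∈ In, act σ t = t) : t = 0 := by
  refine eq_zero_of_congr hp hp3 hpK hHO hH hpt (fun φ hφ => ?_) hsep
  refine hunr _ (ht0 φ hφ) fun σ hσ => ?_
  rw [map_sub, ← hH.equiv φ hφ σ t, ← hH.equiv φ hφ σ 0, hfix σ hσ, hact0 σ hσ]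

/-- **(K3)** `(In - 1) T ∩ T^In = 0`. -/
theorem star (hp : p.Prime) (hp3 : 3 ≤ p) (hpK : (p : K) ≠ 0)
    (hOm : ∀ a ∈ O, ∀ x ∈ m, a * x ∈ m)
    (hHO : ∀ φ ∈ H, ∀ t, φ t ∈ O) (hH : IsHopfOrder κ act H)
    (hpT : ∀ t : T, p • t = 0)
    (In : Set Γ) (hIn : ∀ σ ∈ In, ∀ x ∈ O, κ σ x - x ∈ m) (hact0 : ∀ σ ∈ In, act σ 0 = 0)
    (hunr : ∀ y ∈ m, (∀ σ ∈ In, κ σ y = y) → ∃ z ∈ O, y = (p : K) * z)
    (hsep : ∀ y : K, (∀ n : ℕ, ∃ z ∈ O, y = (p : K) ^ n * z) → y = 0)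
    {σ : Γ} (hσ : σ ∈ In) (s : T)
    (hfix : ∀ σ' ∈ In, act σ' (act σ s - s) = act σ s - s) : act σ s = s := by
  have h0 : act σ s - s ∈ T0set H m := act_sub_mem_T0 hOm hHO hH σ (hIn σ hσ) s
  have := eq_zero_of_mem_T0set_of_fixed hp hp3 hpK hHO hH In hact0 hunr hsep (hpT _) h0 hfix
  exact sub_eq_zero.mp this

end Basic

section Quotient

variable {R F K Γ : Type*} [CommRing R] [IsDomain R] [IsPrincipalIdealRing R]
  [Field F] [Field K] [Algebra R F] [IsFractionRing R F] [Algebra F K] [Algebra R K]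
  [IsScalarTower R F K] {κ : Γ → K →+* K}
variable {T : Type*} [AddCommGroup T] [Finite T] {act : Γ → T → T} {H : Subalgebra R (T → K)}
variable {O : Subring K} {m : AddSubgroup K} {p : ℕ}

/-- **(K4)** `(★)` for the quotient of `T` by an `act`-stable subgroup `N`, stated on `T`:
for `σ ∈ In` and `x = act σ s - s`, if `act σ' x - x ∈ N` for all `σ' ∈ In`, then `x ∈ N`.
Here `act` is assumed additive. -/
theorem star_quotient (hp : p.Prime) (hp3 : 3 ≤ p) (hpK : (p : K) ≠ 0)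
    (hfixF : ∀ x : K, (∀ σ, κ σ x = x) → x ∈ Set.range (algebraMap F K))
    (hOm : ∀ a ∈ O, ∀ x ∈ m, a * x ∈ m)
    (hHO : ∀ φ ∈ H, ∀ t, φ t ∈ O) (hH : IsHopfOrder κ act H)
    (hpT : ∀ t : T, p • t = 0)
    (hadd : ∀ σ s t, act σ (s + t) = act σ s + act σ t)
    (hsurj : ∀ σ, Function.Surjective (act σ))
    (In : Set Γ) (hIn : ∀ σ ∈ In, ∀ x ∈ O, κ σ x - x ∈ m)
    (hunr : ∀ y ∈ m, (∀ σ ∈ In, κ σ y = y) → ∃ z ∈ O, y = (p : K) * z)
    (hsep : ∀ y : K, (∀ n : ℕ, ∃ z ∈ O, y = (p : K) ^ n * z) → y = 0)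
    (N : AddSubgroup T) (hN : ∀ σ, ∀ t ∈ N, act σ t ∈ N)
    {σ : Γ} (hσ : σ ∈ In) (s : T)
    (hfix : ∀ σ' ∈ In, act σ' (act σ s - s) - (act σ s - s) ∈ N) : act σ s - s ∈ N := by
  classical
  -- the additive action on `T` and the induced action on `T ⧸ N`
  have hact0 : ∀ σ, act σ 0 = 0 := fun σ => by
    have := hadd σ 0 0
    rw [add_zero] at this
    exact left_eq_add.mp this
  have hneg : ∀ σ t, act σ (-t) = -act σ t := fun σ t => by
    have := hadd σ t (-t)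
    rw [add_neg_cancel, hact0] at this
    exact (neg_eq_of_add_eq_zero_right this.symm).symm
  have hsub : ∀ σ s t, act σ (s - t) = act σ s - act σ t := fun σ s t => by
    rw [sub_eq_add_neg, hadd, hneg, ← sub_eq_add_neg]
  let actHom : Γ → T →+ T := fun σ =>
    { toFun := act σ, map_zero' := hact0 σ, map_add' := hadd σ }
  let act'' : Γ → T ⧸ N → T ⧸ N := fun σ =>
    QuotientAddGroup.map N N (actHom σ) (fun t ht => hN σ t ht)
  let q : T →+ T ⧸ N := QuotientAddGroup.mk' N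
  have hq : Function.Surjective q := QuotientAddGroup.mk'_surjective N
  have hqact : ∀ σ t, q (act σ t) = act'' σ (q t) := fun σ t => rfl
  have hact''0 : ∀ σ, act'' σ 0 = 0 := fun σ => map_zero _
  have hH'' : IsHopfOrder κ act'' (H.comap (pullback R q)) :=
    hH.comap_pullback hfixF hsurj hact''0 q hq hqact
  have hHO'' : ∀ ψ ∈ H.comap (pullback R q), ∀ x, ψ x ∈ O := by
    intro ψ hψ x
    obtain ⟨t, rfl⟩ := hq x
    exact hHO _ hψ t
  have hpT'' : ∀ x : T ⧸ N, p • x = 0 := by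
    intro x
    obtain ⟨t, rfl⟩ := hq x
    rw [← map_nsmul, hpT, map_zero]
  have key := star hp hp3 hpK hOm hHO'' hH'' hpT'' In hIn (fun σ _ => hact''0 σ) hunr hsep hσ (q s)
    (fun σ' hσ' => by
      rw [← hqact, ← map_sub, ← hqact, ← sub_eq_zero, ← map_sub]
      exact (QuotientAddGroup.eq_zero_iff _).mpr (hfix σ' hσ'))
  rw [← hqact, ← sub_eq_zero, ← map_sub] at key
  exact (QuotientAddGroup.eq_zero_iff _).mp key

end Quotient

end Fermat.Agent.S56.Flat.T2.Star
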